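/-
S24 pieces C (COMB + PERM): the combinatorics of `SL(2, ℤ) ⧸ Γ₀(N)` (index, elliptic fixed
points, cusps) and the Ree inequality / parity for the resulting permutation triple, in the
shapes consumed by `Main.lean`.

This file is glue: the substance is in `Perm.lean` (Scott's lemma, Ree's inequality, parity,
orbit counts for permutations of prime order), `GenusNum.lean`, and helper28's `CombBasic.lean`,
`CombIndex.lean`, `CombCusp.lean`.
-/
import Fermat.Agent.S24.Defs
import Fermat.Agent.S24.GenusNum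
import Fermat.Agent.S24.CombCusp

set_option autoImplicit false

noncomputable section

open scoped MatrixGroups
open ModularCurve

namespace Fermat.Agent.S24.Comb

/-- `cyc` agrees with the orbit count `Perm.orb` of `Perm.lean`. -/
theorem cyc_eq_orb {I : Type*} (σ : Equiv.Perm I) : cyc σ = Perm.orb σ := by
  have h := Perm.orb_toPerm (G := Equiv.Perm I) (X := I) σ
  have e : (MulAction.toPerm σ : Equiv.Perm I) = σ := by
    ext x
    rfl
  rw [e] at h
  exact h.symm

/-- `cyc` of the permutation induced by a group element is the number of orbits of the cyclic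
subgroup it generates. -/
theorem cyc_toPerm {G X : Type*} [Group G] [MulAction G X] (g : G) :
    cyc (MulAction.toPerm g : Equiv.Perm X) =
      Nat.card (MulAction.orbitRel.Quotient (Subgroup.zpowers g) X) := by
  rw [cyc_eq_orb, Perm.orb_toPerm]

theorem cyc_inv {I : Type*} (σ : Equiv.Perm I) : cyc σ⁻¹ = cyc σ := by
  unfold cyc
  rw [Subgroup.zpowers_inv]

theorem cyc_one {I : Type*} : cyc (1 : Equiv.Perm I) = Nat.card I := by
  rw [cyc_eq_orb]
  refine Perm.orb_eq_card_of_surjective (1 : Equiv.Perm I) id Function.surjective_id ?_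
  intro x y
  simp

theorem cosetPerm_one (N : ℕ) : cosetPerm N 1 = 1 := by
  ext x
  exact one_smul SL(2, ℤ) x

theorem cosetPerm_mul (N : ℕ) (g h : SL(2, ℤ)) :
    cosetPerm N (g * h) = cosetPerm N g * cosetPerm N h := by
  ext x
  exact mul_smul g h x

theorem cosetPerm_inv (N : ℕ) (g : SL(2, ℤ)) : cosetPerm N g⁻¹ = (cosetPerm N g)⁻¹ := by
  rw [eq_inv_iff_mul_eq_one, ← cosetPerm_mul, inv_mul_cancel, cosetPerm_one]

/-- `cyc` of a coset permutation is the number of orbits of the cyclic subgroup. -/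
theorem cyc_cosetPerm (N : ℕ) (g : SL(2, ℤ)) :
    cyc (cosetPerm N g) =
      Nat.card (MulAction.orbitRel.Quotient (Subgroup.zpowers g)
        (SL(2, ℤ) ⧸ CongruenceSubgroup.Gamma0 N)) :=
  cyc_toPerm g

/-- C0 + C1: the index of `Γ₀(N)`. -/
theorem card_coset (N : ℕ) [NeZero N] :
    Nat.card (SL(2, ℤ) ⧸ CongruenceSubgroup.Gamma0 N) = dedekindPsi N :=
  GenusNum.card_X N

/-- C2: cycles of `S`. -/
theorem cyc_S (N : ℕ) [NeZero N] :
    2 * cyc (cosetPerm N ModularGroup.S) = dedekindPsi N + nuTwo N := by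
  rw [cyc_cosetPerm]
  exact GenusNum.two_mul_card_orbits_S N

/-- C2: cycles of `S * T`. -/
theorem cyc_ST (N : ℕ) [NeZero N] :
    3 * cyc (cosetPerm N (ModularGroup.S * ModularGroup.T)) = dedekindPsi N + 2 * nuThree N := by
  rw [cyc_cosetPerm]
  exact GenusNum.three_mul_card_orbits_ST N

/-- C3: cycles of `T` = number of cusps. -/
theorem cyc_T (N : ℕ) [NeZero N] : cyc (cosetPerm N ModularGroup.T) = cuspCount N := by
  rw [cyc_cosetPerm]
  exact card_orbits_T N

/-- C4 (Ree's inequality and parity), abstract form. -/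
theorem ree_abstract {I : Type*} [Finite I] [Nonempty I] (a b : Equiv.Perm I)
    (htrans : ∀ i j : I, ∃ g ∈ Subgroup.closure ({a, b} : Set (Equiv.Perm I)), g i = j) :
    cyc a + cyc b + cyc (a * b) ≤ Nat.card I + 2 ∧
      Even (Nat.card I + cyc a + cyc b + cyc (a * b)) := by
  have : Fintype I := Fintype.ofFinite I
  have h1 : a * b * (a * b)⁻¹ = 1 := mul_inv_cancel _
  have htrans' : ∀ x y : I, ∃ g ∈ Subgroup.closure ({a, b, (a * b)⁻¹} : Set (Equiv.Perm I)),
      g x = y := by
    intro x y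
    obtain ⟨g, hg, hxy⟩ := htrans x y
    refine ⟨g, ?_, hxy⟩
    refine Subgroup.closure_mono ?_ hg
    intro s hs
    rcases hs with hs | hs
    · exact Or.inl hs
    · exact Or.inr (Or.inl hs)
  have hree := Perm.ree a b (a * b)⁻¹ h1 htrans'
  have hpar := Perm.parity a b (a * b)⁻¹ h1
  rw [← cyc_eq_orb, ← cyc_eq_orb, ← cyc_eq_orb, cyc_inv, ← Nat.card_eq_fintype_card] at hree hpar
  exact ⟨hree, hpar⟩

/-- C4 for the modular triple. -/
theorem ree (N : ℕ) [NeZero N] :
    cyc (cosetPerm N ModularGroup.S) + cyc (cosetPerm N ModularGroup.T)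
        + cyc (cosetPerm N (ModularGroup.S * ModularGroup.T))
      ≤ Nat.card (SL(2, ℤ) ⧸ CongruenceSubgroup.Gamma0 N) + 2 ∧
    Even (Nat.card (SL(2, ℤ) ⧸ CongruenceSubgroup.Gamma0 N)
      + cyc (cosetPerm N ModularGroup.S) + cyc (cosetPerm N ModularGroup.T)
      + cyc (cosetPerm N (ModularGroup.S * ModularGroup.T))) := by
  have : Finite (SL(2, ℤ) ⧸ CongruenceSubgroup.Gamma0 N) :=
    Subgroup.finite_quotient_of_finiteIndex
  have htrans : ∀ i j : SL(2, ℤ) ⧸ CongruenceSubgroup.Gamma0 N,
      ∃ g ∈ Subgroup.closure ({cosetPerm N ModularGroup.S, cosetPerm N ModularGroup.T} :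
        Set (Equiv.Perm (SL(2, ℤ) ⧸ CongruenceSubgroup.Gamma0 N))), g i = j := by
    intro i j
    obtain ⟨g, hg⟩ := MulAction.exists_smul_eq SL(2, ℤ) i j
    let φ := MulAction.toPermHom SL(2, ℤ) (SL(2, ℤ) ⧸ CongruenceSubgroup.Gamma0 N)
    refine ⟨φ g, ?_, hg⟩
    have hmem : g ∈ Subgroup.closure ({ModularGroup.S, ModularGroup.T} : Set SL(2, ℤ)) := by
      rw [SpecialLinearGroup.SL2Z_generators]
      trivial
    have hmap : φ g ∈ (Subgroup.closure ({ModularGroup.S, ModularGroup.T} : Set SL(2, ℤ))).map φ :=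
      Subgroup.mem_map_of_mem φ hmem
    rw [MonoidHom.map_closure, Set.image_pair] at hmap
    exact hmap
  have h := ree_abstract (cosetPerm N ModularGroup.S) (cosetPerm N ModularGroup.T) htrans
  rw [← cosetPerm_mul] at h
  exact h

end Fermat.Agent.S24.Comb

end
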